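/-
S37 / package P-G, J-independent half (helper77): Galois dictionary.

Equivariance of restriction of places, ramification indices, fibres and the divisor pullback
under a pair of semilinear automorphisms intertwined by a field embedding, and the instances
needed for S37: the arithmetic Galois action on the modular function fields is intertwined by
the two degeneracy embeddings `heckeAlphaBar` (inclusion) and `heckeBetaBar` (`q ↦ q ^ ℓ`) and by
every inclusion `F_N ≤ F_{N'}`.
-/
import Fermat.Prelude.Def_ModularCurve_HeckeOperator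
import Fermat.Prelude.Thm_ModularCurve_coeffMap_qExpand

set_option autoImplicit false

open AlgebraicCurve

noncomputable section

namespace Fermat.Agent.S37.H77

section Generic

variable {K F F' : Type*} [Field K] [Field F] [Field F'] [Algebra K F] [Algebra K F']

theorem mem_restrictAlong_iff (φ : F →ₐ[K] F') (hφ : φ.toRingHom.IsIntegral) (w : Place K F')
    (f : F) : f ∈ (w.restrictAlong φ hφ).toValuationSubring ↔ φ f ∈ w.toValuationSubring :=
  Iff.rfl

theorem mem_smul_place_iff (g : SemilinearAut K F) (v : Place K F) (f : F) :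
    f ∈ (g • v).toValuationSubring ↔ g⁻¹ • f ∈ v.toValuationSubring := by
  rw [SemilinearAut.smul_toValuationSubring]
  exact ValuationSubring.mem_pointwise_smul_iff_inv_smul_mem

variable (φ : F →ₐ[K] F') (hφ : φ.toRingHom.IsIntegral)
  (g : SemilinearAut K F) (g' : SemilinearAut K F')
  (h : SemilinearAut.IntertwinesAlong (φ : F →+* F') g g')

include h in
/-- Restriction of places is equivariant. -/
theorem restrictAlong_smul (w : Place K F') :
    (g' • w).restrictAlong φ hφ = g • w.restrictAlong φ hφ := by
  apply Place.ext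
  ext f
  rw [mem_restrictAlong_iff, mem_smul_place_iff, mem_smul_place_iff, mem_restrictAlong_iff]
  have hf := h.inv f
  simp only [AlgHom.coe_toRingHom] at hf
  rw [hf]

include h in
theorem ord_smul_apply (w : Place K F') (f : F) :
    (g' • w).ord (φ f) = w.ord (φ (g⁻¹ • f)) := by
  have h1 := SemilinearAut.ord_smul g' w (φ (g⁻¹ • f))
  have h2 := h (g⁻¹ • f)
  simp only [AlgHom.coe_toRingHom] at h2
  rw [h2, smul_inv_smul] at h1
  exact h1

include h in
/-- Ramification indices are invariant. -/
theorem ramificationIndexAlong_smul (w : Place K F') :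
    Place.ramificationIndexAlong φ (g' • w) = Place.ramificationIndexAlong φ w := by
  unfold Place.ramificationIndexAlong Place.ramificationIndex
  congr 1
  ext n
  show (0 < n ∧ ∃ f : F, f ≠ 0 ∧ (g' • w).ord (φ f) = n) ↔
    (0 < n ∧ ∃ f : F, f ≠ 0 ∧ w.ord (φ f) = n)
  constructor
  · rintro ⟨hn, f, hf, hfn⟩
    refine ⟨hn, g⁻¹ • f, by simpa using hf, ?_⟩
    rw [← hfn]
    exact (ord_smul_apply φ g g' h w f).symm
  · rintro ⟨hn, f, hf, hfn⟩
    refine ⟨hn, g • f, by simpa using hf, ?_⟩
    rw [← hfn]
    have := ord_smul_apply φ g g' h w (g • f)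
    rw [inv_smul_smul] at this
    exact this

include h in
/-- The divisor pullback is equivariant. -/
theorem pullbackAlong_smul [HasPrincipalDivisors K F'] (D : Divisor K F) :
    Divisor.pullbackAlong φ hφ (g • D) = g' • Divisor.pullbackAlong φ hφ D := by
  ext w
  rw [Divisor.pullbackAlong_apply, SemilinearAut.divisor_smul_apply,
    SemilinearAut.divisor_smul_apply, Divisor.pullbackAlong_apply,
    restrictAlong_smul φ hφ g⁻¹ g'⁻¹ h.inv w,
    ramificationIndexAlong_smul φ g⁻¹ g'⁻¹ h.inv w]

include h in
/-- Fibres are permuted. -/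
theorem mem_fiberAlong_smul_iff [HasPrincipalDivisors K F'] (v : Place K F) (w : Place K F') :
    g' • w ∈ Place.fiberAlong φ hφ (g • v) ↔ w ∈ Place.fiberAlong φ hφ v := by
  rw [Place.mem_fiberAlong, Place.mem_fiberAlong, restrictAlong_smul φ hφ g g' h w]
  exact (MulAction.injective g).eq_iff

end Generic

section Modular

open ModularCurve IntermediateField HahnSeries

variable {L : Type*} [Field L] [Algebra ℚ L]

/-- The arithmetic Galois action commutes with every inclusion of base-changed fields. -/
theorem intertwines_inclusion {F₀ F₁ : IntermediateField ℚ (LaurentSeries ℚ)}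
    (hle : laurentBaseChange L F₀ ≤ laurentBaseChange L F₁) (σ : L ≃ₐ[ℚ] L) :
    SemilinearAut.IntertwinesAlong
      ((IntermediateField.inclusion hle : laurentBaseChange L F₀ →ₐ[L] laurentBaseChange L F₁) :
        laurentBaseChange L F₀ →+* laurentBaseChange L F₁)
      (arithmeticGalois F₀ σ) (arithmeticGalois F₁ σ) := by
  intro x
  apply Subtype.ext
  rfl

/-- The arithmetic Galois action commutes with `heckeAlphaBar` (the inclusion). -/
theorem intertwines_alpha (N ℓ : ℕ) [NeZero N] [NeZero ℓ] (σ : L ≃ₐ[ℚ] L) :
    SemilinearAut.IntertwinesAlong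
      ((heckeAlphaBar L N ℓ : _ →ₐ[L] _) : _ →+* _)
      (arithmeticGalois (modularFunctionFieldFull N) σ)
      (arithmeticGalois (modularFunctionFieldFull (N * ℓ)) σ) := by
  intro x
  apply Subtype.ext
  rw [coe_arithmeticGalois_smul, AlgHom.coe_toRingHom, coe_heckeAlphaBar, coe_heckeAlphaBar,
    coe_arithmeticGalois_smul]

/-- The arithmetic Galois action commutes with `heckeBetaBar` (`q ↦ q ^ ℓ`). -/
theorem intertwines_beta (N ℓ : ℕ) [NeZero N] [NeZero ℓ] (σ : L ≃ₐ[ℚ] L) :
    SemilinearAut.IntertwinesAlong
      ((heckeBetaBar L N ℓ : _ →ₐ[L] _) : _ →+* _)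
      (arithmeticGalois (modularFunctionFieldFull N) σ)
      (arithmeticGalois (modularFunctionFieldFull (N * ℓ)) σ) := by
  intro x
  apply Subtype.ext
  rw [coe_arithmeticGalois_smul, AlgHom.coe_toRingHom, coe_heckeBetaBar, coe_heckeBetaBar,
    coe_arithmeticGalois_smul]
  exact ModularCurve.coeffMap_qExpand (σ : L →+* L) ℓ _

end Modular

end Fermat.Agent.S37.H77
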