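/-
S37 / package P-G, J-independent half (helper77): Galois facts for the Gauss valuation ring.

`A` is a valuation subring of `ℚ̄` over `ℓ`, `N` a level prime to `ℓ`, `O = H66.gaussO A N hA hℓN`
the Gauss valuation ring of `F_N` (helper66, landed).  For `σ ∈ Gal(ℚ̄/ℚ)` acting coefficientwise
(`arithmeticGalois`):

* `smul_mem_gaussO` / `smul_mem_gaussO_iff`       : `σ(A) ⊆ A` (resp. `σ` in the decomposition
  group) gives `σ(O) ⊆ O` (resp. `σ(O) = O`);
* `smul_mem_nonunits_gaussO_iff`                 : the same for the maximal ideal;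
* `smul_sub_mem_nonunits_gaussO`                 : inertia acts trivially on the residue field of
  `O`: `σ f - f ∈ 𝔪_O` for `f ∈ O`, `σ ∈ I_A`;
* `gaussRes_smul_of_frobenius`                   : for a Frobenius `s` at `A` the reduction of
  `s f` is the coefficientwise Frobenius of the reduction of `f`;
* the bridge (r1): `mem_gaussO_of_ratio`, `mem_nonunits_gaussO_of_ratio` (ratios of `A`-integral
  series whose denominator is NOT assumed to lie in `F_N`).
-/
import Fermat.Agent.S18.H66.Leaves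
import Fermat.Agent.S05.Inertia
import Fermat.Prelude.Def_ModularCurve_ArithmeticGalois
import Fermat.Prelude.Def_EllipticCurve_FrobeniusTrace

set_option autoImplicit false

open AlgebraicCurve ModularCurve HahnSeries

noncomputable section

namespace Fermat.Agent.S37.H77

open Fermat.Agent.S18.H66

section Restriction

variable {K : Type*} [Field K] (A : ValuationSubring K)

/-- The restriction to `A` of a ring endomorphism of `K` preserving `A`. -/
def resA (φ : K →+* K) (hφ : ∀ a ∈ A, φ a ∈ A) : A →+* A :=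
  (φ.comp A.subtype).codRestrict A (fun a => hφ a a.2)

@[simp]
theorem coe_resA (φ : K →+* K) (hφ : ∀ a ∈ A, φ a ∈ A) (a : A) :
    ((resA A φ hφ a : A) : K) = φ a := rfl

/-- Coefficientwise action on `A`-integral series. -/
theorem incl_coeffMap_resA (φ : K →+* K) (hφ : ∀ a ∈ A, φ a ∈ A) (y : LaurentSeries A) :
    incl A (coeffMap (resA A φ hφ) y) = coeffMap φ (incl A y) := by
  rw [incl, coeffMap_coeffMap, coeffMap_coeffMap]
  exact coeffMap_congr (RingHom.ext fun a => rfl) y

/-- If `φ` is congruent to the identity modulo the maximal ideal of `A`, it does not change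
reductions. -/
theorem redA_coeffMap_resA_of_inertia (φ : K →+* K) (hφ : ∀ a ∈ A, φ a ∈ A)
    (hφ' : ∀ a ∈ A, φ a - a ∈ A.nonunits) (y : LaurentSeries A) :
    redA A (coeffMap (resA A φ hφ) y) = redA A y := by
  rw [redA, coeffMap_coeffMap]
  refine coeffMap_congr (RingHom.ext fun a => ?_) y
  show IsLocalRing.residue A (resA A φ hφ a) = IsLocalRing.residue A a
  rw [← sub_eq_zero, ← map_sub, IsLocalRing.residue_eq_zero_iff,
    ← ValuationSubring.coe_mem_nonunits_iff]
  exact hφ' a a.2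

/-- If `φ` induces `ψ` on the residue field, then reductions are transformed by `ψ`
coefficientwise. -/
theorem redA_coeffMap_resA_of_residue (φ : K →+* K) (hφ : ∀ a ∈ A, φ a ∈ A)
    (ψ : IsLocalRing.ResidueField A →+* IsLocalRing.ResidueField A)
    (hψ : ∀ a : A, IsLocalRing.residue A (resA A φ hφ a) = ψ (IsLocalRing.residue A a))
    (y : LaurentSeries A) :
    redA A (coeffMap (resA A φ hφ) y) = coeffMap ψ (redA A y) := by
  rw [redA, coeffMap_coeffMap, coeffMap_coeffMap]
  exact coeffMap_congr (RingHom.ext fun a => hψ a) y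

/-- A ring endomorphism preserving `A` and its maximal ideal does not kill reductions. -/
theorem redA_coeffMap_resA_ne_zero (φ : K →+* K) (hφ : ∀ a ∈ A, φ a ∈ A)
    (hloc : ∀ a ∈ A, φ a ∈ A.nonunits → a ∈ A.nonunits) {y : LaurentSeries A}
    (hy : redA A y ≠ 0) : redA A (coeffMap (resA A φ hφ) y) ≠ 0 := by
  intro h0
  apply hy
  ext n
  have h1 := congrArg (fun z => z.coeff n) h0
  simp only [coeffMap_coeff, HahnSeries.coeff_zero] at h1 ⊢
  rw [IsLocalRing.residue_eq_zero_iff, ← ValuationSubring.coe_mem_nonunits_iff] at h1 ⊢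
  exact hloc _ (y.coeff n).2 h1

theorem redA_coeffMap_resA_eq_zero (φ : K →+* K) (hφ : ∀ a ∈ A, φ a ∈ A)
    (hloc : ∀ a ∈ A, a ∈ A.nonunits → φ a ∈ A.nonunits) {y : LaurentSeries A}
    (hy : redA A y = 0) : redA A (coeffMap (resA A φ hφ) y) = 0 := by
  ext n
  have h1 := congrArg (fun z => z.coeff n) hy
  simp only [coeffMap_coeff, HahnSeries.coeff_zero] at h1 ⊢
  rw [IsLocalRing.residue_eq_zero_iff, ← ValuationSubring.coe_mem_nonunits_iff] at h1 ⊢
  exact hloc _ (y.coeff n).2 h1

end Restriction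

section Decomposition

variable {K : Type*} [Field K] (A : ValuationSubring K)

open scoped Pointwise

/-- Elements of the decomposition group preserve `A`, in both directions. -/
theorem map_mem_of_mem_decomposition {k₀ : Type*} [Field k₀] [Algebra k₀ K] {σ : K ≃ₐ[k₀] K}
    (hσ : σ ∈ A.decompositionSubgroup k₀) :
    (∀ a ∈ A, σ a ∈ A) ∧ (∀ a ∈ A, σ.symm a ∈ A) := by
  have h2 : σ • A = A := hσ
  constructor
  · intro a ha
    have h1 : σ • a ∈ σ • A := ValuationSubring.smul_mem_pointwise_smul _ _ _ ha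
    rw [h2] at h1
    exact h1
  · intro a ha
    rw [← h2] at ha
    have := (ValuationSubring.mem_pointwise_smul_iff_inv_smul_mem).mp ha
    exact this

/-- A ring automorphism preserving `A` in both directions preserves the maximal ideal. -/
theorem map_mem_nonunits_iff {φ : K ≃+* K} (hφ : ∀ a ∈ A, φ a ∈ A) (hφ' : ∀ a ∈ A, φ.symm a ∈ A)
    (a : K) : φ a ∈ A.nonunits ↔ a ∈ A.nonunits := by
  have key : ∀ (ψ : K ≃+* K), (∀ a ∈ A, ψ.symm a ∈ A) → ∀ a : K, a ∈ A.nonunits →
      ψ a ∈ A.nonunits := by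
    intro ψ hψ a ha
    rw [ValuationSubring.mem_nonunits_iff_or] at ha ⊢
    rcases ha with ha | ha
    · left; rw [ha, map_zero]
    · right
      intro h
      apply ha
      have := hψ _ h
      rwa [map_inv₀, RingEquiv.symm_apply_apply] at this
  constructor
  · intro h
    have := key φ.symm (fun a ha => by simpa using hφ a ha) _ h
    rwa [RingEquiv.symm_apply_apply] at this
  · exact key φ hφ' a

end Decomposition

section Gauss

variable (A : ValuationSubring Kb) {ℓ : ℕ} [Fact ℓ.Prime] (N : ℕ) [NeZero N]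
  (hA : A.LiesOverPrime ℓ) (hℓN : ¬ ℓ ∣ N)

/-- **Bridge (r1), integrality.** A ratio of `A`-integral series with denominator of nonzero
reduction (not assumed to lie in `F_N`) is Gauss-integral. -/
theorem mem_gaussO_of_ratio (f : ↥(modularFunctionFieldBar N)) {y₁ y₂ : LaurentSeries A}
    (hy : redA A y₂ ≠ 0) (h : (f : LaurentSeries Kb) * incl A y₂ = incl A y₁) :
    f ∈ gaussO A N hA hℓN :=
  isGaussInt_of_ratio (hScale_bar A N hA hℓN) f.2 hy h

/-- **Bridge (r1), maximal ideal.** If moreover the numerator reduces to `0`, the ratio lies in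
the maximal ideal of the Gauss ring. -/
theorem mem_nonunits_gaussO_of_ratio (f : ↥(modularFunctionFieldBar N)) {y₁ y₂ : LaurentSeries A}
    (hy₁ : redA A y₁ = 0) (hy : redA A y₂ ≠ 0)
    (h : (f : LaurentSeries Kb) * incl A y₂ = incl A y₁) :
    f ∈ (gaussO A N hA hℓN).nonunits := by
  obtain ⟨z₁, z₂, hz, hzF, hfz⟩ := mem_gaussO_of_ratio A N hA hℓN f hy h
  rw [mem_nonunits_gaussO_iff]
  refine ⟨z₁, z₂, ?_, hz, hzF, hfz⟩
  have h1 : y₁ * z₂ = z₁ * y₂ := incl_injective A (by
    rw [map_mul, map_mul, ← h, ← hfz]; ring)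
  have h2 := congrArg (redA A) h1
  rw [map_mul, map_mul, hy₁, zero_mul] at h2
  rcases mul_eq_zero.mp h2.symm with h3 | h3
  · exact h3
  · exact absurd h3 hy

variable {A N}

/-- `σ(A) ⊆ A` implies `σ(O) ⊆ O`. -/
theorem smul_mem_gaussO {σ : Kb ≃ₐ[ℚ] Kb} (hσ : ∀ a ∈ A, σ a ∈ A)
    {f : ↥(modularFunctionFieldBar N)} (hf : f ∈ gaussO A N hA hℓN) :
    arithmeticGalois (modularFunctionFieldFull N) σ • f ∈ gaussO A N hA hℓN := by
  obtain ⟨y₁, y₂, hy, -, hfy⟩ := hf
  have hσ' : ∀ a ∈ A, (σ : Kb →+* Kb) a ∈ A := hσ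
  have hloc : ∀ a ∈ A, (σ : Kb →+* Kb) a ∈ A.nonunits → a ∈ A.nonunits := by
    intro a ha h
    rw [ValuationSubring.mem_nonunits_iff_or] at h ⊢
    rcases h with h | h
    · left
      exact (map_eq_zero (σ : Kb →+* Kb)).mp h
    · by_cases ha0 : a = 0
      · exact Or.inl ha0
      · right
        intro hinv
        apply h
        have := hσ _ hinv
        rwa [map_inv₀] at this
  refine mem_gaussO_of_ratio A N hA hℓN _ (y₁ := coeffMap (resA A (σ : Kb →+* Kb) hσ') y₁)
    (y₂ := coeffMap (resA A (σ : Kb →+* Kb) hσ') y₂)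
    (redA_coeffMap_resA_ne_zero A _ hσ' hloc hy) ?_
  rw [incl_coeffMap_resA A _ hσ' y₁, incl_coeffMap_resA A _ hσ' y₂, coe_arithmeticGalois_smul,
    ← map_mul, hfy]

/-- The decomposition group preserves the Gauss ring. -/
theorem smul_mem_gaussO_iff {σ : Kb ≃ₐ[ℚ] Kb} (hσ : σ ∈ A.decompositionSubgroup ℚ)
    (f : ↥(modularFunctionFieldBar N)) :
    arithmeticGalois (modularFunctionFieldFull N) σ • f ∈ gaussO A N hA hℓN ↔
      f ∈ gaussO A N hA hℓN := by
  obtain ⟨h1, h2⟩ := map_mem_of_mem_decomposition A hσ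
  constructor
  · intro h
    have := smul_mem_gaussO hA hℓN (σ := σ⁻¹) h2 h
    rwa [map_inv, inv_smul_smul] at this
  · exact smul_mem_gaussO hA hℓN h1

/-- The decomposition group preserves the maximal ideal of the Gauss ring. -/
theorem smul_mem_nonunits_gaussO_iff {σ : Kb ≃ₐ[ℚ] Kb} (hσ : σ ∈ A.decompositionSubgroup ℚ)
    (f : ↥(modularFunctionFieldBar N)) :
    arithmeticGalois (modularFunctionFieldFull N) σ • f ∈ (gaussO A N hA hℓN).nonunits ↔
      f ∈ (gaussO A N hA hℓN).nonunits := by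
  have hinv : (arithmeticGalois (modularFunctionFieldFull N) σ • f)⁻¹ =
      arithmeticGalois (modularFunctionFieldFull N) σ • f⁻¹ := by
    rw [SemilinearAut.smul_def, SemilinearAut.smul_def, map_inv₀]
  have h0 : arithmeticGalois (modularFunctionFieldFull N) σ • f = 0 ↔ f = 0 := by
    rw [SemilinearAut.smul_def]
    exact map_eq_zero_iff _ (SemilinearAut.toRingAut _).injective
  rw [ValuationSubring.mem_nonunits_iff_or, ValuationSubring.mem_nonunits_iff_or, hinv,
    smul_mem_gaussO_iff hA hℓN hσ, h0]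

/-- **Inertia acts trivially on the residue field of the Gauss ring.** -/
theorem smul_sub_mem_nonunits_gaussO {σ : Kb ≃ₐ[ℚ] Kb} (hσ : σ ∈ A.inertiaSubgroupIn ℚ)
    {f : ↥(modularFunctionFieldBar N)} (hf : f ∈ gaussO A N hA hℓN) :
    arithmeticGalois (modularFunctionFieldFull N) σ • f - f ∈ (gaussO A N hA hℓN).nonunits := by
  obtain ⟨h1', h2'⟩ := Fermat.Agent.S05.inertia_props A hσ
  have h1 : ∀ a ∈ A, (σ : Kb →+* Kb) a ∈ A := h1'
  have h2 : ∀ a ∈ A, (σ : Kb →+* Kb) a - a ∈ A.nonunits := h2'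
  obtain ⟨y₁, y₂, hy, -, hfy⟩ := hf
  set ρ := resA A (σ : Kb →+* Kb) h1 with hρ
  have hfy' : ((arithmeticGalois (modularFunctionFieldFull N) σ • f :
      ↥(modularFunctionFieldBar N)) : LaurentSeries Kb) * incl A (coeffMap ρ y₂) =
      incl A (coeffMap ρ y₁) := by
    rw [hρ, incl_coeffMap_resA A _ h1 y₁, incl_coeffMap_resA A _ h1 y₂,
      coe_arithmeticGalois_smul, ← map_mul, hfy]
  have hr1 : redA A (coeffMap ρ y₁) = redA A y₁ := redA_coeffMap_resA_of_inertia A _ h1 h2 y₁
  have hr2 : redA A (coeffMap ρ y₂) = redA A y₂ := redA_coeffMap_resA_of_inertia A _ h1 h2 y₂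
  refine mem_nonunits_gaussO_of_ratio A N hA hℓN _
    (y₁ := coeffMap ρ y₁ * y₂ - y₁ * coeffMap ρ y₂) (y₂ := y₂ * coeffMap ρ y₂) ?_ ?_ ?_
  · rw [map_sub, map_mul, map_mul, hr1, hr2, sub_self]
  · rw [map_mul, hr2]
    exact mul_ne_zero hy hy
  · rw [map_sub, map_mul, map_mul, map_mul, ← hfy', ← hfy]
    push_cast
    ring

/-- **Frobenius on the residue field of the Gauss ring.**  For a Frobenius element `s` at `A`,
the reduction of `s f` is the coefficientwise Frobenius of the reduction of `f`. -/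
theorem gaussRes_smul_of_frobenius {s : Kb ≃ₐ[ℚ] Kb} (hs : A.IsFrobeniusAt s ℓ)
    (ψ : IsLocalRing.ResidueField A →+* IsLocalRing.ResidueField A) (hψ : ∀ x, ψ x = x ^ ℓ)
    {f : ↥(modularFunctionFieldBar N)} (hf : f ∈ gaussO A N hA hℓN) :
    gaussRes A (modularFunctionFieldBar N)
        ((arithmeticGalois (modularFunctionFieldFull N) s • f : ↥(modularFunctionFieldBar N)) :
          LaurentSeries Kb) =
      coeffMap ψ (gaussRes A (modularFunctionFieldBar N) (f : LaurentSeries Kb)) := by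
  have hdec := hs.mem_decompositionSubgroup
  obtain ⟨h1', -⟩ := map_mem_of_mem_decomposition A hdec
  have h1 : ∀ a ∈ A, (s : Kb →+* Kb) a ∈ A := h1'
  obtain ⟨y₁, y₂, hy, hyF, hfy⟩ := hf
  set ρ := resA A (s : Kb →+* Kb) h1 with hρ
  have hres : ∀ a : A, IsLocalRing.residue A (ρ a) = ψ (IsLocalRing.residue A a) := by
    intro a
    have h3 := hs.smul_residue_eq (IsLocalRing.residue A a)
    rw [← IsLocalRing.ResidueField.residue_smul] at h3
    rw [hψ, ← h3]
    congr 1
  have hr : ∀ y : LaurentSeries A, redA A (coeffMap ρ y) = coeffMap ψ (redA A y) :=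
    redA_coeffMap_resA_of_residue A _ h1 ψ hres
  have hfy' : ((arithmeticGalois (modularFunctionFieldFull N) s • f :
      ↥(modularFunctionFieldBar N)) : LaurentSeries Kb) * incl A (coeffMap ρ y₂) =
      incl A (coeffMap ρ y₁) := by
    rw [hρ, incl_coeffMap_resA A _ h1 y₁, incl_coeffMap_resA A _ h1 y₂,
      coe_arithmeticGalois_smul, ← map_mul, hfy]
  have hyF' : incl A (coeffMap ρ y₂) ∈ modularFunctionFieldBar N := by
    rw [hρ, incl_coeffMap_resA A _ h1 y₂]
    exact coeffMap_mem_laurentBaseChange s hyF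
  have hy' : redA A (coeffMap ρ y₂) ≠ 0 := by
    rw [hr]
    exact (map_ne_zero_iff _ (coeffMap ψ).injective).mpr hy
  rw [gaussRes_eq hy' hyF' hfy', gaussRes_eq hy hyF hfy, hr, hr, map_div₀]

end Gauss

end Fermat.Agent.S37.H77
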