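/-
S37 / package P-H (helper77): concrete assembly.

`core` : `H65.Core N p` for the Hecke-module structure of the Prelude, from the landed packages
(helper36 abstract core and EVAL, helper20 RedHyp instance, helper46/helper81 regions,
helper75/helper64 norm value, helper65 Kronecker, helper71 V-Gauss, helper85 explicit setups,
Program J's abstract Theorem T).
-/
import Fermat.Agent.S37.H36.Clause
import Fermat.Agent.S37.H36.Eval
import Fermat.Agent.S37.H65.Top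
import Fermat.Agent.S37.H75.Modular
import Fermat.Agent.S37.H75.ModularFibre
import Fermat.Agent.S37.H77.GalPullback
import Fermat.Agent.S37.H77.GaussGalois
import Fermat.Agent.S37.H81.Region
import Fermat.Agent.S37.H81.Haupt
import Fermat.Agent.S37.H46.RegionModular
import Fermat.Agent.S37.H46.RegionHaupt
import Fermat.Agent.S37.H12.ClsGalois
import Fermat.Agent.S37.H87.HeckeDegree
import Fermat.Agent.S37.H53.FundId
import Fermat.Agent.S37.H53.NormFormula
import Fermat.Agent.S37.H20.RedHypSetup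
import Fermat.Agent.S37.H46.EvalFields
import Fermat.Agent.S37.H75.NormValueH36
import Fermat.Agent.S37.H71.NormGauss
import Fermat.Agent.S37.H71.VGauss
import Fermat.Agent.S37.H65.Conj.KronField
import Fermat.Agent.S37.H12.GlueGalois
import Fermat.Agent.S18.H85.SetupCases
import Fermat.Agent.S18.H85.SetupExplicit
import Fermat.Agent.S18.H74.Assembly2
import Fermat.Agent.S18.H74.Clear
import Fermat.Agent.S18.H57.CardLe
import Fermat.Prelude.Def_ModularCurve_HeckeModule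

set_option autoImplicit false

open AlgebraicCurve ModularCurve IntermediateField

noncomputable section

namespace Fermat.Agent.S37.H77

open Fermat.Agent.S18 Fermat.Agent.S37

open Fermat.Agent.S18.H74 (Kb FN Setup)

/-- Principal divisors on the modular function fields (helper75). -/
theorem hasPrincipalDivisors_FN (M : ℕ) [NeZero M] : HasPrincipalDivisors Kb (FN M) :=
  H75.hasPrincipalDivisors_FF M

attribute [local instance] hasPrincipalDivisors_FN

/-! ### Inputs from the landed packages -/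

/-- (I1) `RedHyp` for an arbitrary `Setup` over a place above `ℓ` (helper20). -/
theorem redHyp_of_setup_in {ℓ : ℕ} [Fact ℓ.Prime] {A : ValuationSubring Kb}
    (hA : A.LiesOverPrime ℓ) {M : ℕ} [NeZero M] {O : ValuationSubring (FN M)} {x : FN M}
    (hS : Setup Kb A (FN M) O x) : H36.RedHyp A O (H38.cls A x) :=
  H20.redHyp_of_setup (H60.unit_facts A hA 1 (fun h =>
    (Fact.out : ℓ.Prime).one_lt.ne' (Nat.dvd_one.mp h))).1 hS

/-- (I3) norm descent along `V = heckeBetaBar Kb N q`. -/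
theorem desc_beta (N q : ℕ) [NeZero N] [NeZero q]
    (hV : (heckeBetaBar Kb N q).toRingHom.IsIntegral) (D : Divisor Kb (FN N))
    (hD : Divisor.pullbackAlong (heckeBetaBar Kb N q) hV D ∈
      Divisor.principal (K := Kb) (F := FN (N * q))) :
    finrankAlong Kb (heckeBetaBar Kb N q) • D ∈ Divisor.principal (K := Kb) (F := FN N) := by
  have hfin : FiniteAlong Kb (heckeBetaBar Kb N q) := H87.finiteAlong_beta N q
  have hN := H53.normFormulaAlong_of_charZero (heckeBetaBar Kb N q) hfin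
  have h := Divisor.isPrincipal_pushforwardAlong (heckeBetaBar Kb N q) hV hfin hN hD
  rwa [H53.pushforwardAlong_pullbackAlong_of_charZero _ hV hfin D] at h

section Eval

variable (N q : ℕ) [NeZero N] [NeZero q] {ℓ : ℕ} [Fact ℓ.Prime] [NeZero ℓ]
  (A : ValuationSubring Kb) (hA : A.LiesOverPrime ℓ) (hℓN : ¬ ℓ ∣ N) (hℓM : ¬ ℓ ∣ N * q)
  {s : Kb ≃ₐ[ℚ] Kb} (hs : A.IsFrobeniusAt s ℓ)
  (hV : (heckeBetaBar Kb N q).toRingHom.IsIntegral)
  (hα : (heckeAlphaBar Kb N ℓ).toRingHom.IsIntegral)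
  (hβ : (heckeBetaBar Kb N ℓ).toRingHom.IsIntegral)
  {𝔇 : Type*} (cls : Place Kb (FN (N * q)) → 𝔇)

include hℓN hs in
set_option maxHeartbeats 4000000 in
/-- (I2) `EvalHyp` on the integral region (fields: helper46, helper75, helper71, helper65,
helper12). -/
theorem evalHyp_IN
    (hcls : ∀ w ∈ H46.IN A (N * q), ∀ w' : Place Kb (FN (N * q)), cls w' = cls w →
      w' ∈ H46.IN A (N * q)) :
    H36.EvalHyp (K := Kb) (F₁ := FN N) (F₂ := FN (N * q)) (F₃ := FN (N * ℓ)) A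
      (H66.gaussO A (N * q) hA hℓM) cls (heckeBetaBar Kb N q) hV
      (heckeAlphaBar Kb N ℓ) (heckeBetaBar Kb N ℓ) hα hβ
      (arithmeticGalois (modularFunctionFieldFull N) s) ℓ (H46.IN A N) (H46.IN A (N * q))
      (H81.regOn (H66.gaussO A (N * q) hA hℓM) (H46.IN A (N * q))) :=
  H46.evalHyp_IN A N q ℓ (H66.gaussO A (N * q) hA hℓM) cls hcls hV hα hβ s
    hs.mem_decompositionSubgroup _
    (H75.normValueAlong_beta N q hV) (H75.normValueAlong_beta N ℓ hβ)
    (fun _ hg => (H71.beta_mem_gaussO_iff N q A hA hℓN hℓM _).mpr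
      (H71.norm_mem_gaussO N q A hA hℓN hℓM hg))
    (H65.kron_field A N q hA hℓN hℓM hs)
    H81.regOn_subset H81.regOn_reg
    (fun _ ha => H12.frobenius_apply_sub_pow_mem_nonunits hs ha)
    (H75.inertiaDegAlong_alpha N ℓ hα) (H75.exists_over_beta N q hV)

include hℓN hs in
set_option maxHeartbeats 4000000 in
/-- (I2') `EvalHyp` on the complement of the integral region. -/
theorem evalHyp_compl
    (hcls : ∀ w ∈ (H46.IN A (N * q))ᶜ, ∀ w' : Place Kb (FN (N * q)), cls w' = cls w →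
      w' ∈ (H46.IN A (N * q))ᶜ) :
    H36.EvalHyp (K := Kb) (F₁ := FN N) (F₂ := FN (N * q)) (F₃ := FN (N * ℓ)) A
      (H66.gaussO A (N * q) hA hℓM) cls (heckeBetaBar Kb N q) hV
      (heckeAlphaBar Kb N ℓ) (heckeBetaBar Kb N ℓ) hα hβ
      (arithmeticGalois (modularFunctionFieldFull N) s) ℓ (H46.IN A N)ᶜ (H46.IN A (N * q))ᶜ
      (H81.regOn (H66.gaussO A (N * q) hA hℓM) (H46.IN A (N * q))ᶜ) :=
  H46.evalHyp_IN_compl A N q ℓ (H66.gaussO A (N * q) hA hℓM) cls hcls hV hα hβ s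
    hs.mem_decompositionSubgroup _
    (H75.normValueAlong_beta N q hV) (H75.normValueAlong_beta N ℓ hβ)
    (fun _ hg => (H71.beta_mem_gaussO_iff N q A hA hℓN hℓM _).mpr
      (H71.norm_mem_gaussO N q A hA hℓN hℓM hg))
    (H65.kron_field A N q hA hℓN hℓM hs)
    H81.regOn_subset H81.regOn_reg
    (fun _ ha => H12.frobenius_apply_sub_pow_mem_nonunits hs ha)
    (H75.inertiaDegAlong_alpha N ℓ hα) (H75.exists_over_beta N q hV)

end Eval

/-! ### Glue proved here -/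

/-- The Hecke operator `T_ℓ` of the Prelude on `JZero N` is induced by the divisor
correspondence `α_* β^*`. -/
theorem heckeOperatorAlong_mk (N ℓ : ℕ) [NeZero N] [NeZero ℓ]
    (hα : HeckeAlphaBarIntegral Kb N ℓ) (hβ : HeckeBetaBarIntegral Kb N ℓ)
    (D : Divisor.degZero (K := Kb) (F := FN N)) :
    ∃ h : Divisor.correspondence (heckeBetaBar Kb N ℓ) (heckeAlphaBar Kb N ℓ) hβ hα D.1 ∈
        Divisor.degZero (K := Kb) (F := FN N),
      heckeOperatorAlong Kb N ℓ (Pic0.mk D) =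
        Pic0.mk ⟨Divisor.correspondence (heckeBetaBar Kb N ℓ) (heckeAlphaBar Kb N ℓ) hβ hα D.1,
          h⟩ := by
  obtain ⟨hα', hβ', hP, hfin, hFI, hN⟩ := H75.heckeInputsAlong N ℓ
  refine ⟨(Pic0.degZeroCorrespondence (heckeBetaBar Kb N ℓ) (heckeAlphaBar Kb N ℓ) hβ hα hFI D).2,
    ?_⟩
  rw [heckeOperatorAlong_eq hα hβ hFI hfin hN]
  rfl

/-- The abstract Theorem T (Program J) for every `Setup` over a place above `ℓ` and every prime
exponent `≠ ℓ`. -/
theorem absT_of_setup {ℓ : ℕ} [Fact ℓ.Prime] {A : ValuationSubring Kb}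
    (hA : A.LiesOverPrime ℓ) {M : ℕ} {O : ValuationSubring (FN M)} {x : FN M}
    (hS : Setup Kb A (FN M) O x) (r : ℕ) (hr : r.Prime) (hrℓ : ¬ ℓ ∣ r) :
    ∀ u : FN M, u - 1 ∈ O.nonunits → (∀ P : Place Kb (FN M), (r : ℤ) ∣ P.ord u) →
      ∃ w : FN M, u = w ^ r := by
  obtain ⟨hAtop, hr0, hrA, harch⟩ := H60.unit_facts A hA r hrℓ
  exact H74.absT_prime_of_clear_count hAtop harch hS r hr hrA
    (H74.clearStatement hAtop hS r hr0) (H74.clearStatement hAtop (H64.setup_inv hS) r hr0)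
    (H57.card_le_of_approx hAtop hS)

/-- A function with rational `q`-expansion is fixed by the arithmetic Galois action. -/
theorem smul_eq_self_of_rational (M : ℕ) (x : FN M)
    (hx : ∃ X0 : LaurentSeries ℚ, (x : LaurentSeries Kb) = coeffEmb Kb X0) (σ : Kb ≃ₐ[ℚ] Kb) :
    arithmeticGalois (modularFunctionFieldFull M) σ • x = x := by
  obtain ⟨X0, hX0⟩ := hx
  refine H12.arithmeticGalois_smul_eq_self (modularFunctionFieldFull M) x (fun n => ?_)
  rw [hX0, coeffEmb, coeffMap_coeff]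
  exact σ.commutes _

/-! ### One clause of `Core` at a J-level `N * q` -/

section Level

variable (N p : ℕ) [NeZero N] [Module HeckeAlg (JZero N)]
  [SMulCommClass (Kb ≃ₐ[ℚ] Kb) HeckeAlg (JZero N)]
  {ℓ : ℕ} [Fact ℓ.Prime] [NeZero ℓ]

theorem core_clause_level (hℓ : ℓ.Prime)
    (hgen : ∀ y : JZero N, heckeGen ⟨ℓ, hℓ⟩ • y = heckeOperatorAlong Kb N ℓ y)
    (hℓN : ¬ ℓ ∣ N) (hℓp : ¬ ℓ ∣ p)
    (A : ValuationSubring Kb) (hA : A.LiesOverPrime ℓ) (s : Kb ≃ₐ[ℚ] Kb)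
    (hs : A.IsFrobeniusAt s ℓ)
    (q : ℕ) [NeZero q] (hℓM : ¬ ℓ ∣ N * q)
    (hdp : Nat.Coprime (finrankAlong Kb (heckeBetaBar Kb N q)) p)
    (x : FN (N * q)) (hS : Setup Kb A (FN (N * q)) (H66.gaussO A (N * q) hA hℓM) x)
    (hxrat : ∃ X0 : LaurentSeries ℚ, (x : LaurentSeries Kb) = coeffEmb Kb X0)
    (TI : Set (Option (IsLocalRing.ResidueField A))) (hTI : TI ≠ Set.univ)
    (hTC : TIᶜ ≠ Set.univ)
    (hreg : ∀ P : Place Kb (FN (N * q)), H38.cls A x P ∈ TI ↔ P ∈ H46.IN A (N * q)) :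
    ∀ z ∈ H65.relSubmodule (K := ℚ) (JZero N) A ℓ hℓ s, (∃ n : ℕ, p ^ n • z = 0) → z = 0 := by
  have hV : (heckeBetaBar Kb N q).toRingHom.IsIntegral := H87.heckeBetaBarIntegral N q
  have hα : HeckeAlphaBarIntegral Kb N ℓ := H87.heckeAlphaBarIntegral N ℓ
  have hβ : HeckeBetaBarIntegral Kb N ℓ := H87.heckeBetaBarIntegral N ℓ
  have hR : H36.RedHyp A (H66.gaussO A (N * q) hA hℓM) (H38.cls A x) := redHyp_of_setup_in hA hS
  have hp0 : p ≠ 0 := by
    rintro rfl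
    exact hℓp (dvd_zero ℓ)
  have hx : ∀ σ : Kb ≃ₐ[ℚ] Kb, arithmeticGalois (modularFunctionFieldFull (N * q)) σ • x = x :=
    smul_eq_self_of_rational (N * q) x hxrat
  have := H38.isAlgClosed_residueField A
  have : Infinite (IsLocalRing.ResidueField A) := IsAlgClosed.instInfinite
  refine H36.core_clause (modularFunctionFieldFull N) hR p ℓ hℓ s
    (Divisor.pullbackAlong (heckeBetaBar Kb N q) hV)
    (fun D hD => Divisor.isPrincipal_pullbackAlong _ hV hD)
    (finrankAlong Kb (heckeBetaBar Kb N q)) (desc_beta N q hV) hp0 hdp ?_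
    (fun σ => arithmeticGalois (modularFunctionFieldFull (N * q)) σ) ?_ ?_ ?_
    (Divisor.correspondence (heckeBetaBar Kb N ℓ) (heckeAlphaBar Kb N ℓ) hβ hα) ?_ ?_
  · -- hT
    intro r hr hrp
    exact absT_of_setup hA hS r hr (fun h => hℓp (h.trans hrp))
  · -- hequiv
    intro σ _ D
    exact pullbackAlong_smul (heckeBetaBar Kb N q) hV _ _ (intertwines_beta N q σ) D
  · -- hcls
    intro σ hσ P
    exact H12.cls_arithmeticGalois_smul (modularFunctionFieldFull (N * q)) A hσ x (hx σ) P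
  · -- hres
    intro σ hσ f hf _
    exact smul_sub_mem_nonunits_gaussO hA hℓM hσ hf
  · -- hTdiv
    intro D
    obtain ⟨h, hh⟩ := heckeOperatorAlong_mk N ℓ hα hβ D
    exact ⟨h, (hgen _).trans hh⟩
  · -- hes
    intro P
    refine AddSubgroup.mem_sup_right ?_
    by_cases hP : P ∈ H46.IN A N
    · have hRI : H81.region A x TI = H46.IN A (N * q) := Set.ext fun w => hreg w
      have hc := H81.cong_of_setup hS hR hTI
      rw [hRI] at hc
      have hE := evalHyp_IN N q A hA hℓN hℓM hs hV hα hβ (H38.cls A x)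
        (fun w hw w' h => (hreg w').mp (h ▸ (hreg w).mpr hw))
      exact H36.es_place hR hE (H81.zero_mem_regOn _) H81.add_mem_regOn
        (H81.smul_mem_regOn hR.mem_iff) hc hP
    · have hRC : H81.region A x TIᶜ = (H46.IN A (N * q))ᶜ :=
        Set.ext fun w => not_congr (hreg w)
      have hc := H81.cong_of_setup hS hR hTC
      rw [hRC] at hc
      have hE := evalHyp_compl N q A hA hℓN hℓM hs hV hα hβ (H38.cls A x)
        (fun w hw w' h hw' => hw ((hreg w).mp (h ▸ (hreg w').mpr hw')))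
      exact H36.es_place hR hE (H81.zero_mem_regOn _) H81.add_mem_regOn
        (H81.smul_mem_regOn hR.mem_iff) hc hP

end Level

/-! ### The three level cases -/

section Cases

open Fermat.Agent.S18.H28 (jtop)

/-- `[F_{N·1} : β F_N] = 1`. -/
theorem finrankAlong_beta_one (N : ℕ) [NeZero N] :
    finrankAlong Kb (heckeBetaBar Kb N 1) = 1 := by
  have h := H87.finrankAlong_beta N 1
  have e : dedekindPsi (N * 1) = dedekindPsi N := by rw [mul_one]
  rw [e] at h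
  exact Nat.eq_of_mul_eq_mul_right (Fermat.Agent.S18.H87.dedekindPsi_pos N)
    (h.trans (one_mul _).symm)

/-- The integral region in terms of the classes of `j(q^M)`. -/
theorem cls_jtop_ne_none_iff (A : ValuationSubring Kb) (M : ℕ) [NeZero M]
    (P : Place Kb (FN M)) : H38.cls A (jtop M) P ≠ none ↔ P ∈ H46.IN A M := by
  rw [H81.cls_ne_none_iff, H46.mem_IN_iff,
    H46.mem_valRing_iff_ord (H46.jFN_ne_algebraMap M M dvd_rfl)]

variable (N p : ℕ) [NeZero N] [Module HeckeAlg (JZero N)]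
  [SMulCommClass (Kb ≃ₐ[ℚ] Kb) HeckeAlg (JZero N)]
  {ℓ : ℕ} [Fact ℓ.Prime] [NeZero ℓ]

theorem finCls_compl_ne_univ (A : ValuationSubring Kb) : (H81.finCls A)ᶜ ≠ Set.univ := by
  refine (Set.ne_univ_iff_exists_notMem _).mpr ⟨some 0, fun h => h ?_⟩
  exact Option.some_ne_none _

theorem unitCls_compl_ne_univ (A : ValuationSubring Kb) : (H81.unitCls A)ᶜ ≠ Set.univ := by
  refine (Set.ne_univ_iff_exists_notMem _).mpr ⟨some 1, fun h => h ?_⟩
  exact ⟨1, one_ne_zero, rfl⟩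

/-- Case `ℓ ≠ 2, 3`: level `N`, base function `j(q^N)`. -/
theorem core_clause_top (hℓ : ℓ.Prime)
    (hgen : ∀ y : JZero N, heckeGen ⟨ℓ, hℓ⟩ • y = heckeOperatorAlong Kb N ℓ y)
    (hℓN : ¬ ℓ ∣ N) (hℓp : ¬ ℓ ∣ p) (h2 : ℓ ≠ 2) (h3 : ℓ ≠ 3)
    (A : ValuationSubring Kb) (hA : A.LiesOverPrime ℓ) (s : Kb ≃ₐ[ℚ] Kb)
    (hs : A.IsFrobeniusAt s ℓ) :
    ∀ z ∈ H65.relSubmodule (K := ℚ) (JZero N) A ℓ hℓ s, (∃ n : ℕ, p ^ n • z = 0) → z = 0 := by
  have hℓM : ¬ ℓ ∣ N * 1 := by rwa [mul_one]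
  refine core_clause_level N p hℓ hgen hℓN hℓp A hA s hs 1 hℓM ?_ (jtop (N * 1))
    (H85.setup_top (N * 1) hℓM A hA h2 h3) ⟨_, H85.coe_jtop (N * 1)⟩ (H81.finCls A)
    (H81.finCls_ne_univ A) (finCls_compl_ne_univ A) (fun P => cls_jtop_ne_none_iff A (N * 1) P)
  rw [finrankAlong_beta_one]
  exact Nat.coprime_one_left p

/-- Level with `2 ∣ N q`, `ℓ ≠ 2`: base function the Hauptmodul of level two. -/
theorem core_clause_two (hℓ : ℓ.Prime)
    (hgen : ∀ y : JZero N, heckeGen ⟨ℓ, hℓ⟩ • y = heckeOperatorAlong Kb N ℓ y)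
    (hℓN : ¬ ℓ ∣ N) (hℓp : ¬ ℓ ∣ p)
    (A : ValuationSubring Kb) (hA : A.LiesOverPrime ℓ) (s : Kb ≃ₐ[ℚ] Kb)
    (hs : A.IsFrobeniusAt s ℓ) (q : ℕ) [NeZero q] (hℓM : ¬ ℓ ∣ N * q) (h2M : 2 ∣ N * q)
    (hdp : Nat.Coprime (finrankAlong Kb (heckeBetaBar Kb N q)) p) :
    ∀ z ∈ H65.relSubmodule (K := ℚ) (JZero N) A ℓ hℓ s, (∃ n : ℕ, p ^ n • z = 0) → z = 0 := by
  obtain ⟨x, hS, hrel, hrat, -⟩ := H85.exists_setup_haupt_two (N * q) hℓM A hA h2M
  have hℓ2 : ¬ ℓ ∣ 2 := fun h => hℓM (h.trans h2M)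
  have h2A : ((2 : Kb))⁻¹ ∈ A := by
    have h := H60.natCast_inv_mem_of_not_dvd A hA 2 hℓ2
    exact_mod_cast h
  have hfd : FiniteDimensional Kb⟮x⟯ (FN (N * q)) := hS.finite
  have : Algebra.IsAlgebraic Kb⟮x⟯ (FN (N * q)) := Algebra.IsAlgebraic.of_finite _ _
  refine core_clause_level N p hℓ hgen hℓN hℓp A hA s hs q hℓM hdp x hS hrat (H81.unitCls A)
    (H81.unitCls_ne_univ A) (unitCls_compl_ne_univ A) (fun P => ?_)
  rw [← cls_jtop_ne_none_iff]
  exact (H81.cls_haupt_two_iff two_ne_zero h2A hrel P).symm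

/-- Level with `3 ∣ N q`, `ℓ ≠ 3`: base function the Hauptmodul of level three. -/
theorem core_clause_three (hℓ : ℓ.Prime)
    (hgen : ∀ y : JZero N, heckeGen ⟨ℓ, hℓ⟩ • y = heckeOperatorAlong Kb N ℓ y)
    (hℓN : ¬ ℓ ∣ N) (hℓp : ¬ ℓ ∣ p)
    (A : ValuationSubring Kb) (hA : A.LiesOverPrime ℓ) (s : Kb ≃ₐ[ℚ] Kb)
    (hs : A.IsFrobeniusAt s ℓ) (q : ℕ) [NeZero q] (hℓM : ¬ ℓ ∣ N * q) (h3M : 3 ∣ N * q)
    (hdp : Nat.Coprime (finrankAlong Kb (heckeBetaBar Kb N q)) p) :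
    ∀ z ∈ H65.relSubmodule (K := ℚ) (JZero N) A ℓ hℓ s, (∃ n : ℕ, p ^ n • z = 0) → z = 0 := by
  obtain ⟨x, hS, hrel, hrat, -⟩ := H85.exists_setup_haupt_three (N * q) hℓM A hA h3M
  have hℓ3 : ¬ ℓ ∣ 3 := fun h => hℓM (h.trans h3M)
  have h3A : ((3 : Kb))⁻¹ ∈ A := by
    have h := H60.natCast_inv_mem_of_not_dvd A hA 3 hℓ3
    exact_mod_cast h
  have hfd : FiniteDimensional Kb⟮x⟯ (FN (N * q)) := hS.finite
  have : Algebra.IsAlgebraic Kb⟮x⟯ (FN (N * q)) := Algebra.IsAlgebraic.of_finite _ _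
  refine core_clause_level N p hℓ hgen hℓN hℓp A hA s hs q hℓM hdp x hS hrat (H81.unitCls A)
    (H81.unitCls_ne_univ A) (unitCls_compl_ne_univ A) (fun P => ?_)
  rw [← cls_jtop_ne_none_iff]
  exact (H81.cls_haupt_three_iff three_ne_zero h3A hrel P).symm

omit [Fact ℓ.Prime] [NeZero ℓ] in
/-- **One clause of `Core`**, all cases. -/
theorem core_clause_final (ℓ : ℕ) (hℓ : ℓ.Prime)
    (hgen : ∀ y : JZero N, heckeGen ⟨ℓ, hℓ⟩ • y =
      (haveI : NeZero ℓ := ⟨hℓ.ne_zero⟩; heckeOperatorAlong Kb N ℓ y))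
    (hℓNp : ¬ ℓ ∣ N * p)
    (A : ValuationSubring Kb) (hA : A.LiesOverPrime ℓ) (s : Kb ≃ₐ[ℚ] Kb)
    (hs : A.IsFrobeniusAt s ℓ) :
    ∀ z ∈ H65.relSubmodule (K := ℚ) (JZero N) A ℓ hℓ s, (∃ n : ℕ, p ^ n • z = 0) → z = 0 := by
  have : Fact ℓ.Prime := ⟨hℓ⟩
  have : NeZero ℓ := ⟨hℓ.ne_zero⟩
  have hℓN : ¬ ℓ ∣ N := fun h => hℓNp (h.mul_right p)
  have hℓp : ¬ ℓ ∣ p := fun h => hℓNp (h.mul_left N)
  by_cases h2 : ℓ = 2
  · -- `ℓ = 2`: Hauptmodul of level three
    by_cases h3N : 3 ∣ N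
    · refine core_clause_three N p hℓ hgen hℓN hℓp A hA s hs 1 (by rwa [mul_one])
        (by rwa [mul_one]) ?_
      rw [finrankAlong_beta_one]
      exact Nat.coprime_one_left p
    · have hℓM : ¬ ℓ ∣ N * 3 := by
        intro h
        rcases (Nat.Prime.dvd_mul hℓ).mp h with h | h
        · exact hℓN h
        · rw [h2] at h
          omega
      refine core_clause_three N p hℓ hgen hℓN hℓp A hA s hs 3 hℓM (dvd_mul_left 3 N) ?_
      rw [H87.finrankAlong_beta_prime N 3 Nat.prime_three h3N]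
      have h2p : Nat.Coprime 2 p := (Nat.Prime.coprime_iff_not_dvd Nat.prime_two).mpr (h2 ▸ hℓp)
      exact Nat.Coprime.pow_left 2 h2p
  by_cases h3 : ℓ = 3
  · -- `ℓ = 3`: Hauptmodul of level two
    by_cases h2N : 2 ∣ N
    · refine core_clause_two N p hℓ hgen hℓN hℓp A hA s hs 1 (by rwa [mul_one])
        (by rwa [mul_one]) ?_
      rw [finrankAlong_beta_one]
      exact Nat.coprime_one_left p
    · have hℓM : ¬ ℓ ∣ N * 2 := by
        intro h
        rcases (Nat.Prime.dvd_mul hℓ).mp h with h | h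
        · exact hℓN h
        · rw [h3] at h
          omega
      refine core_clause_two N p hℓ hgen hℓN hℓp A hA s hs 2 hℓM (dvd_mul_left 2 N) ?_
      rw [H87.finrankAlong_beta_prime N 2 Nat.prime_two h2N]
      exact (Nat.Prime.coprime_iff_not_dvd Nat.prime_three).mpr (h3 ▸ hℓp)
  · exact core_clause_top N p hℓ hgen hℓN hℓp h2 h3 A hA s hs

end Cases

/-- **`Core N p`** for the Hecke-module structure of the Prelude. -/
theorem core (N p : ℕ) [NeZero N] (hcomm : HeckeOperatorsCommuteBar N) :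
    letI := heckeModuleBar N
    ∀ (_ : SMulCommClass (Kb ≃ₐ[ℚ] Kb) HeckeAlg (JZero N)), H65.Core N p := by
  letI := heckeModuleBar N
  intro _ ℓ hℓ hℓNp A hA s hs
  exact core_clause_final N p ℓ hℓ
    (fun y => (heckeModuleBar_heckeGen_smul hcomm ⟨ℓ, hℓ⟩ y).trans
      (heckeOperatorBar_apply N ⟨ℓ, hℓ⟩ y)) hℓNp A hA s hs

end Fermat.Agent.S37.H77
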