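/-
S37 core, hypothesis-free export (helper77) for the consumers of Program A.

`core_free` : for a prime `ℓ ∤ N p`, a place `A` of `ℚ̄` above `ℓ` and a `p`-power torsion point
`x` of `J₀(N)`:
* the inertia group of `A` fixes `x`;
* every Frobenius element `σ` at `A` satisfies `σ² x - T_ℓ (σ x) + ℓ x = 0`.

No commutation of the Hecke operators is needed: `H77.core_clause_final` holds for every
`HeckeAlg`-module structure on `J₀(N)` whose `ℓ`-th generator acts as `T_ℓ` and commutes with the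
Galois action; it is applied to the structure `X_ℓ ↦ T_ℓ`, `X_ℓ' ↦ 0` (`ℓ' ≠ ℓ`).
-/
import Fermat.Agent.S37.H77.Assembly
import Fermat.Agent.S29.H60.GaloisHecke

set_option autoImplicit false

open AlgebraicCurve ModularCurve

noncomputable section

namespace Fermat.Agent.S37.H77

open Fermat.Agent.S18 Fermat.Agent.S37

open Fermat.Agent.S18.H74 (Kb FN)

section OneOperator

variable {J : Type*} [AddCommGroup J]

/-- The ring homomorphism `HeckeAlg → End J` with `X_ℓ ↦ T` and `X_ℓ' ↦ 0` for `ℓ' ≠ ℓ`. -/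
def oneOpHom (T : Module.End ℤ J) (ℓ : Nat.Primes) : HeckeAlg →+* Module.End ℤ J :=
  ((Polynomial.aeval T : Polynomial ℤ →ₐ[ℤ] Module.End ℤ J) :
      Polynomial ℤ →+* Module.End ℤ J).comp
    (MvPolynomial.eval₂Hom (Polynomial.C : ℤ →+* Polynomial ℤ)
      (fun ℓ' : Nat.Primes => if ℓ' = ℓ then Polynomial.X else 0))

theorem oneOpHom_heckeGen (T : Module.End ℤ J) (ℓ : Nat.Primes) :
    oneOpHom T ℓ (heckeGen ℓ) = T := by
  simp [oneOpHom, heckeGen]

/-- A polynomial in `T` commutes with every additive map commuting with `T`. -/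
theorem aeval_apply_comm (T : Module.End ℤ J) (S : J →+ J) (hT : ∀ x, S (T x) = T (S x))
    (q : Polynomial ℤ) (x : J) :
    S (Polynomial.aeval T q x) = Polynomial.aeval T q (S x) := by
  induction q using Polynomial.induction_on generalizing x with
  | C a =>
    rw [Polynomial.aeval_C, Module.algebraMap_end_apply, Module.algebraMap_end_apply]
    exact map_zsmul S a x
  | add q r hq hr =>
    rw [map_add, LinearMap.add_apply, LinearMap.add_apply, map_add, hq, hr]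
  | monomial n a ih =>
    rw [pow_succ, ← mul_assoc, map_mul, Polynomial.aeval_X, Module.End.mul_apply,
      Module.End.mul_apply, ih, hT]

end OneOperator

/-- **The S37 core without hypotheses on the Hecke algebra.** -/
theorem core_free (N p : ℕ) [NeZero N] :
    ∀ ℓ (hℓ : ℓ.Prime), ¬ ℓ ∣ N * p → ∀ A : ValuationSubring (AlgebraicClosure ℚ),
      A.LiesOverPrime ℓ → ∀ x : JZero N, (∃ n : ℕ, p ^ n • x = 0) →
        (∀ σ ∈ A.inertiaSubgroupIn ℚ, σ • x = x) ∧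
          ∀ σ : AlgebraicClosure ℚ ≃ₐ[ℚ] AlgebraicClosure ℚ, A.IsFrobeniusAt σ ℓ →
            σ • σ • x - heckeOperatorBar N ⟨ℓ, hℓ⟩ (σ • x) + ℓ • x = 0 := by
  intro ℓ hℓ hℓNp A hA x hx
  letI inst1 : Module HeckeAlg (JZero N) :=
    Module.compHom (JZero N) (oneOpHom (heckeOperatorBar N ⟨ℓ, hℓ⟩) ⟨ℓ, hℓ⟩)
  have hsmul : ∀ (t : HeckeAlg) (y : JZero N),
      t • y = oneOpHom (heckeOperatorBar N ⟨ℓ, hℓ⟩) ⟨ℓ, hℓ⟩ t y := fun _ _ => rfl
  haveI inst2 : SMulCommClass (Kb ≃ₐ[ℚ] Kb) HeckeAlg (JZero N) := by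
    refine ⟨fun σ t y => ?_⟩
    rw [hsmul, hsmul]
    exact aeval_apply_comm (heckeOperatorBar N ⟨ℓ, hℓ⟩)
      (DistribSMul.toAddMonoidHom (JZero N) σ)
      (fun z => Fermat.Agent.S29.H60.galois_smul_heckeOperatorBar N ⟨ℓ, hℓ⟩ σ z) _ y
  have hgen' : ∀ y : JZero N, heckeGen ⟨ℓ, hℓ⟩ • y = heckeOperatorBar N ⟨ℓ, hℓ⟩ y := by
    intro y
    rw [hsmul]
    exact LinearMap.congr_fun (oneOpHom_heckeGen (heckeOperatorBar N ⟨ℓ, hℓ⟩) ⟨ℓ, hℓ⟩) y
  have hgen : ∀ y : JZero N, heckeGen ⟨ℓ, hℓ⟩ • y =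
      (haveI : NeZero ℓ := ⟨hℓ.ne_zero⟩; heckeOperatorAlong Kb N ℓ y) :=
    fun y => (hgen' y).trans (heckeOperatorBar_apply N ⟨ℓ, hℓ⟩ y)
  obtain ⟨n, hn⟩ := hx
  have key : ∀ s : Kb ≃ₐ[ℚ] Kb, A.IsFrobeniusAt s ℓ →
      ∀ z ∈ H65.relSubmodule (K := ℚ) (JZero N) A ℓ hℓ s, (∃ n : ℕ, p ^ n • z = 0) → z = 0 :=
    fun s hs => core_clause_final N p ℓ hℓ hgen hℓNp A hA s hs
  have hgal : ∀ (σ : Kb ≃ₐ[ℚ] Kb) (y : JZero N), p ^ n • y = 0 → p ^ n • (σ • y) = 0 := by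
    intro σ y hy
    rw [smul_comm, hy]
    exact @smul_zero (Kb ≃ₐ[ℚ] Kb) (JZero N) _ _ σ
  constructor
  · intro σ hσ
    obtain ⟨s, hs⟩ := Fermat.Agent.S54.H94.exists_isFrobeniusAt_of_liesOverPrime A hℓ hA
    have h0 := key s hs (σ • x - x) (H65.inertia_sub_mem A ℓ hℓ s hσ x)
      ⟨n, by rw [nsmul_sub, hgal σ x hn, hn, sub_zero]⟩
    exact sub_eq_zero.mp h0
  · intro s hs
    have h1 : p ^ n • (s • s • x) = 0 := hgal s _ (hgal s x hn)
    have h2 : p ^ n • (heckeGen ⟨ℓ, hℓ⟩ • s • x) = 0 := by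
      rw [hgen', ← map_nsmul, hgal s x hn, map_zero]
    have h3 : p ^ n • (ℓ • x) = 0 := by
      rw [← mul_nsmul, mul_comm, mul_nsmul, hn, nsmul_zero]
    have h0 := key s hs _ (H65.quadratic_mem A ℓ hℓ s x)
      ⟨n, by rw [nsmul_add, nsmul_sub, h1, h2, h3, sub_zero, add_zero]⟩
    rwa [hgen'] at h0

end Fermat.Agent.S37.H77
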