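/-
S37 / package P-G, J-independent half (helper77): the residue-disc classes of a Galois-fixed base
function are permuted by semilinear automorphisms whose base automorphism preserves `A`, and fixed
by those acting trivially on the residue field of `A` (inertia).

`cls = H38.cls A x : Place K F → Option (ResidueField A)` is the landed class map of Program J
(residue discs of the base function `x`, `none` = the disc at infinity).
-/
import Fermat.Agent.S18.H38.Exports
import Fermat.Prelude.Def_AlgebraicCurve_BaseChangeGalois

set_option autoImplicit false

open AlgebraicCurve IntermediateField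

noncomputable section

namespace Fermat.Agent.S37.H77

open Fermat.Agent.S18

variable {K : Type*} [Field K] (A : ValuationSubring K) {F : Type*} [Field F] [Algebra K F]
  (x : F)

/-- A semilinear automorphism fixing `x` whose base automorphism preserves the maximal ideal of
`A` maps the residue disc of `b` to the residue disc of the image of `b`. -/
theorem inDisc_smul (g : SemilinearAut K F) (hx : g • x = x)
    (hA : ∀ a ∈ A.nonunits, SemilinearAut.baseAut g a ∈ A.nonunits) {b : K} {P : Place K F}
    (h : H74.InDisc A x b P) : H74.InDisc A x (SemilinearAut.baseAut g b) (g • P) := by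
  obtain ⟨c, hc, hP⟩ := h
  refine ⟨SemilinearAut.baseAut g c, ?_, ?_⟩
  · rw [← map_sub]
    exact hA _ hc
  · have h1 : x - algebraMap K F (SemilinearAut.baseAut g c) = g • (x - algebraMap K F c) := by
      rw [smul_sub, hx, SemilinearAut.smul_algebraMap]
    rw [h1, SemilinearAut.ord_smul]
    exact hP

/-- A semilinear automorphism fixing `x` whose base automorphism is congruent to the identity on
`A` preserves every residue disc with centre in `A`. -/
theorem inDisc_smul_of_inertia (g : SemilinearAut K F) (hx : g • x = x)
    (hg : ∀ a ∈ A, SemilinearAut.baseAut g a - a ∈ A.nonunits) {b : K} (hb : b ∈ A)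
    {P : Place K F} (h : H74.InDisc A x b P) : H74.InDisc A x b (g • P) := by
  obtain ⟨c, hc, hP⟩ := h
  have hcA : c ∈ A := by
    have h1 : c = (c - b) + b := by ring
    rw [h1]
    exact add_mem (ValuationSubring.nonunits_subset hc) hb
  refine ⟨SemilinearAut.baseAut g c, ?_, ?_⟩
  · have h1 : SemilinearAut.baseAut g c - b = (SemilinearAut.baseAut g c - c) + (c - b) := by ring
    rw [h1]
    exact A.nonunits.add_mem (hg c hcA) hc
  · have h1 : x - algebraMap K F (SemilinearAut.baseAut g c) = g • (x - algebraMap K F c) := by
      rw [smul_sub, hx, SemilinearAut.smul_algebraMap]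
    rw [h1, SemilinearAut.ord_smul]
    exact hP

theorem cls_smul_aux (g : SemilinearAut K F) (hx : g • x = x)
    (hg : ∀ a ∈ A, SemilinearAut.baseAut g a - a ∈ A.nonunits) (P : Place K F)
    (r : IsLocalRing.ResidueField A) (h : H38.cls A x P = some r) :
    H38.cls A x (g • P) = some r := by
  obtain ⟨⟨b, hb⟩, rfl⟩ := IsLocalRing.residue_surjective r
  rw [H38.cls_eq_some_iff A x hb] at h ⊢
  exact inDisc_smul_of_inertia A x g hx hg hb h

/-- **Inertia preserves the classes.**  A semilinear automorphism fixing the base function `x`,
whose base automorphism (and its inverse) is congruent to the identity on `A`, fixes the class of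
every place. -/
theorem cls_smul_of_inertia (g : SemilinearAut K F) (hx : g • x = x)
    (hg : ∀ a ∈ A, SemilinearAut.baseAut g a - a ∈ A.nonunits)
    (hg' : ∀ a ∈ A, (SemilinearAut.baseAut g).symm a - a ∈ A.nonunits) (P : Place K F) :
    H38.cls A x (g • P) = H38.cls A x P := by
  rcases h : H38.cls A x P with _ | r
  · rcases h' : H38.cls A x (g • P) with _ | r
    · rfl
    · exfalso
      have hx' : g⁻¹ • x = x := by
        rw [inv_smul_eq_iff, hx]
      have h2 := cls_smul_aux A x g⁻¹ hx' (fun a ha => by
        rw [SemilinearAut.baseAut_inv]
        exact hg' a ha) (g • P) r h'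
      rw [inv_smul_smul, h] at h2
      exact absurd h2 (by simp)
  · exact cls_smul_aux A x g hx hg P r h

end Fermat.Agent.S37.H77
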